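/-
S15, block A, HECKE (helper17): the shape of the modular equation.
-/
import Mathlib

set_option autoImplicit false

noncomputable section

namespace Fermat.Agent.S15.A

/-- `X^(q+1) + Y^(q+1) + ∑_{a,b ≤ q} c a b X^a Y^b = 0`. -/
def ModEq {R : Type*} [CommRing R] (q : ℕ) (c : ℕ → ℕ → ℤ) (X Y : R) : Prop :=
  X ^ (q + 1) + Y ^ (q + 1) + ∑ a ∈ Finset.range (q + 1), ∑ b ∈ Finset.range (q + 1),
    (c a b : R) * X ^ a * Y ^ b = 0

theorem ModEq.symm {R : Type*} [CommRing R] {q : ℕ} {c : ℕ → ℕ → ℤ} {X Y : R}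
    (h : ModEq q c X Y) : ModEq q (fun a b => c b a) Y X := by
  unfold ModEq at h ⊢
  rw [Finset.sum_comm, add_comm (Y ^ (q + 1))]
  rw [← h]
  congr 1
  refine Finset.sum_congr rfl fun a _ => Finset.sum_congr rfl fun b _ => ?_
  ring

theorem ModEq.map {R S : Type*} [CommRing R] [CommRing S] (f : R →+* S) {q : ℕ}
    {c : ℕ → ℕ → ℤ} {X Y : R} (h : ModEq q c X Y) : ModEq q c (f X) (f Y) := by
  unfold ModEq at h ⊢
  have h1 := congrArg f h
  simpa only [map_add, map_sum, map_mul, map_pow, map_intCast, map_zero] using h1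

theorem ModEq.of_map {R S : Type*} [CommRing R] [CommRing S] (f : R →+* S)
    (hf : Function.Injective f) {q : ℕ} {c : ℕ → ℕ → ℤ} {X Y : R}
    (h : ModEq q c (f X) (f Y)) : ModEq q c X Y := by
  unfold ModEq at h ⊢
  apply hf
  simpa only [map_add, map_sum, map_mul, map_pow, map_intCast, map_zero] using h

end Fermat.Agent.S15.A

end
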