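/-
S15, block A, HECKE (helper17): the modular equation of prime level `q` for `j(q^d)`, `j(q^(qd))`
(wrapper around the landed `Lib/ModEq`).
-/
import Fermat.Agent.S15.A.Hecke.ModEqDef
import Fermat.Agent.Lib.ModEq.Field

set_option autoImplicit false

noncomputable section

namespace Fermat.Agent.S15.A

open ModularCurve AlgebraicCurve Fermat.Agent.S24

/-- the coefficients of the modular equation -/
def phiC (q : ℕ) [NeZero q] (_hq : q.Prime) : ℕ → ℕ → ℤ := Fermat.Agent.Lib.ModEq.cPhi q

theorem phiC_self (q : ℕ) [NeZero q] (hq : q.Prime) : phiC q hq q q = -1 :=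
  Fermat.Agent.Lib.ModEq.cPhi_top q hq

theorem modEq_JF (q : ℕ) [NeZero q] (hq : q.Prime) (M d e : ℕ) [NeZero d] [NeZero e]
    (he : e = q * d) (hd : d ∣ M) (he' : e ∣ M) :
    ModEq q (phiC q hq) (JF M d hd) (JF M e he') := by
  have he2 : e = d * q := by rw [he, mul_comm]
  subst he2
  exact Fermat.Agent.Lib.ModEq.modEq_JK Kbar q hq M d hd he'

end Fermat.Agent.S15.A

end
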