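/-
S15, block A, HECKE (helper17): the Newton polygon of the modular equation.
Pure valuation theory (Mathlib only).   Proofs: helper197.
-/
import Fermat.Agent.S15.A.Hecke.ModEqDef

set_option autoImplicit false

noncomputable section

namespace Fermat.Agent.S15.A

open Finset

section General

variable {F : Type*} [Field F] {Γ : Type*} [LinearOrderedCommGroupWithZero Γ]

theorem np_int_le (v : Valuation F Γ) (hv : ∀ n : ℕ, v (n : F) ≤ 1) (n : ℤ) : v (n : F) ≤ 1 := by
  obtain ⟨m, rfl | rfl⟩ := n.eq_nat_or_neg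
  · simpa using hv m
  · simpa using hv m

theorem np_ne_zero_of_lt (v : Valuation F Γ) {a b : F} (h : v b < v a) : a + b ≠ 0 := by
  intro e
  have h1 := Valuation.map_add_eq_of_lt_right v h
  rw [add_comm, e, map_zero] at h1
  rw [← h1] at h
  exact not_lt_zero h


theorem np_term_le (v : Valuation F Γ) (hv : ∀ n : ℕ, v (n : F) ≤ 1) (c : ℕ → ℕ → ℤ) (X Y : F)
    (z : ℕ × ℕ) : v ((c z.1 z.2 : F) * X ^ z.1 * Y ^ z.2) ≤ v X ^ z.1 * v Y ^ z.2 := by
  simp only [map_mul, map_pow]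
  calc v (c z.1 z.2 : F) * v X ^ z.1 * v Y ^ z.2 ≤ 1 * v X ^ z.1 * v Y ^ z.2 := by
        gcongr
        exact np_int_le v hv _
    _ = v X ^ z.1 * v Y ^ z.2 := by rw [one_mul]

theorem np_one_lt {q : ℕ} {c : ℕ → ℕ → ℤ} {X Y : F} (e : ModEq q c X Y) (v : Valuation F Γ)
    (hv : ∀ n : ℕ, v (n : F) ≤ 1) (hX : 1 < v X) : 1 < v Y := by
  unfold ModEq at e
  set x := v X with hx
  set y := v Y with hy
  have hx0 : 0 < x := lt_trans zero_lt_one hX
  set t : ℕ × ℕ → F := fun z => (c z.1 z.2 : F) * X ^ z.1 * Y ^ z.2 with ht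
  have hS : ∑ a ∈ range (q + 1), ∑ b ∈ range (q + 1), (c a b : F) * X ^ a * Y ^ b
      = ∑ z ∈ range (q + 1) ×ˢ range (q + 1), t z := by
    rw [sum_product]
  rw [hS] at e
  have hvt : ∀ z : ℕ × ℕ, v (t z) ≤ x ^ z.1 * y ^ z.2 := np_term_le v hv c X Y
  by_contra hcon
  have hy1 : y ≤ 1 := not_lt.1 hcon
  have h1 : v (∑ z ∈ range (q + 1) ×ˢ range (q + 1), t z) < x ^ (q + 1) := by
    refine Valuation.map_sum_lt v (pow_pos hx0 _).ne' fun z hz => ?_
    obtain ⟨hz1, hz2⟩ := mem_product.1 hz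
    have hz1' : z.1 ≤ q := Nat.lt_succ_iff.1 (mem_range.1 hz1)
    calc v (t z) ≤ x ^ z.1 * y ^ z.2 := hvt z
      _ ≤ x ^ z.1 * 1 := by
          gcongr
          exact pow_le_one₀ zero_le hy1
      _ = x ^ z.1 := mul_one _
      _ < x ^ (q + 1) := by
          gcongr
          omega
  have h2 : v (Y ^ (q + 1)) < x ^ (q + 1) := by
    rw [map_pow]
    calc y ^ (q + 1) ≤ 1 := pow_le_one₀ zero_le hy1
      _ < x ^ (q + 1) := one_lt_pow₀ hX (by omega)
  have h3 : v (Y ^ (q + 1) + ∑ z ∈ range (q + 1) ×ˢ range (q + 1), t z) < v (X ^ (q + 1)) := by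
    rw [map_pow]
    exact Valuation.map_add_lt v h2 h1
  exact np_ne_zero_of_lt v h3 (by rw [← e]; ring)

theorem np_general {q : ℕ} (hq : 1 ≤ q) {c : ℕ → ℕ → ℤ} (hc : c q q = -1) {X Y : F}
    (e : ModEq q c X Y) (v : Valuation F Γ)
    (hv : ∀ n : ℕ, v (n : F) ≤ 1) (hX : 1 < v X) :
    v Y = v X ^ q ∨ v Y ^ q = v X := by
  have hY : 1 < v Y := np_one_lt e v hv hX
  unfold ModEq at e
  set x := v X with hx
  set y := v Y with hy
  have hx0 : 0 < x := lt_trans zero_lt_one hX
  set t : ℕ × ℕ → F := fun z => (c z.1 z.2 : F) * X ^ z.1 * Y ^ z.2 with ht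
  have hS : ∑ a ∈ range (q + 1), ∑ b ∈ range (q + 1), (c a b : F) * X ^ a * Y ^ b
      = ∑ z ∈ range (q + 1) ×ˢ range (q + 1), t z := by
    rw [sum_product]
  rw [hS] at e
  have hvt : ∀ z : ℕ × ℕ, v (t z) ≤ x ^ z.1 * y ^ z.2 := np_term_le v hv c X Y
  have hy0 : 0 < y := lt_trans zero_lt_one hY
  -- split off the term `(q, q)`
  have hmem : (q, q) ∈ range (q + 1) ×ˢ range (q + 1) :=
    mem_product.2 ⟨mem_range.2 (Nat.lt_succ_self q), mem_range.2 (Nat.lt_succ_self q)⟩
  rw [← add_sum_erase _ _ hmem] at e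
  set R := ∑ z ∈ (range (q + 1) ×ˢ range (q + 1)).erase (q, q), t z with hR
  have hT3 : v (t (q, q)) = x ^ q * y ^ q := by
    rw [ht]
    simp only [map_mul, map_pow, hc]
    rw [Int.cast_neg, Int.cast_one, Valuation.map_neg, map_one, one_mul]
  have hRlt : v R < x ^ q * y ^ q := by
    refine Valuation.map_sum_lt v (mul_pos (pow_pos hx0 _) (pow_pos hy0 _)).ne' fun z hz => ?_
    obtain ⟨hne, hz'⟩ := mem_erase.1 hz
    obtain ⟨hz1, hz2⟩ := mem_product.1 hz'
    have hz1' : z.1 ≤ q := Nat.lt_succ_iff.1 (mem_range.1 hz1)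
    have hz2' : z.2 ≤ q := Nat.lt_succ_iff.1 (mem_range.1 hz2)
    refine lt_of_le_of_lt (hvt z) ?_
    rcases hz1'.lt_or_eq with h1 | h1
    · calc x ^ z.1 * y ^ z.2 < x ^ q * y ^ z.2 := by
            have : x ^ z.1 < x ^ q := by gcongr
            exact mul_lt_mul_of_pos_right this (pow_pos hy0 _)
        _ ≤ x ^ q * y ^ q := by
            gcongr
            exact hY.le
    · have h2 : z.2 < q := by
        rcases hz2'.lt_or_eq with h2 | h2
        · exact h2
        · exact absurd (Prod.ext h1 h2) hne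
      rw [h1]
      have : y ^ z.2 < y ^ q := by gcongr
      exact mul_lt_mul_of_pos_left this (pow_pos hx0 _)
  have hT1 : v (X ^ (q + 1)) = x ^ (q + 1) := map_pow _ _ _
  have hT2 : v (Y ^ (q + 1)) = y ^ (q + 1) := map_pow _ _ _
  have hyq : y ≤ y ^ q := le_self_pow₀ hY.le (by omega)
  have hxq : x ≤ x ^ q := le_self_pow₀ hX.le (by omega)
  rcases lt_trichotomy x (y ^ q) with h1 | h1 | h1
  · rcases lt_trichotomy y (x ^ q) with h2 | h2 | h2
    · -- the middle term dominates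
      exfalso
      have a1 : v (X ^ (q + 1)) < v (t (q, q)) := by
        rw [hT1, hT3, pow_succ]
        exact mul_lt_mul_of_pos_left h1 (pow_pos hx0 _)
      have a2 : v (Y ^ (q + 1)) < v (t (q, q)) := by
        rw [hT2, hT3, pow_succ']
        exact mul_lt_mul_of_pos_right h2 (pow_pos hy0 _)
      have a3 : v R < v (t (q, q)) := by rw [hT3]; exact hRlt
      have a4 : v (X ^ (q + 1) + Y ^ (q + 1) + R) < v (t (q, q)) :=
        Valuation.map_add_lt v (Valuation.map_add_lt v a1 a2) a3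
      exact np_ne_zero_of_lt v a4 (by rw [← e]; ring)
    · exact Or.inl h2
    · -- `Y ^ (q+1)` dominates
      exfalso
      have hxy : x < y := lt_of_le_of_lt hxq h2
      have a1 : v (X ^ (q + 1)) < v (Y ^ (q + 1)) := by
        rw [hT1, hT2]
        exact pow_lt_pow_left₀ hxy zero_le (by omega)
      have a2 : v (t (q, q)) < v (Y ^ (q + 1)) := by
        rw [hT2, hT3, pow_succ']
        exact mul_lt_mul_of_pos_right h2 (pow_pos hy0 _)
      have a3 : v R < v (Y ^ (q + 1)) := lt_trans (by rw [hT3]; exact hRlt) a2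
      have a4 : v (X ^ (q + 1) + t (q, q) + R) < v (Y ^ (q + 1)) :=
        Valuation.map_add_lt v (Valuation.map_add_lt v a1 a2) a3
      exact np_ne_zero_of_lt v a4 (by rw [← e]; ring)
  · exact Or.inr h1.symm
  · -- `X ^ (q+1)` dominates
    exfalso
    have hxy : y < x := lt_of_le_of_lt hyq h1
    have a1 : v (Y ^ (q + 1)) < v (X ^ (q + 1)) := by
      rw [hT1, hT2]
      exact pow_lt_pow_left₀ hxy zero_le (by omega)
    have a2 : v (t (q, q)) < v (X ^ (q + 1)) := by
      rw [hT1, hT3, pow_succ]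
      exact mul_lt_mul_of_pos_left h1 (pow_pos hx0 _)
    have a3 : v R < v (X ^ (q + 1)) := lt_trans (by rw [hT3]; exact hRlt) a2
    have a4 : v (Y ^ (q + 1) + t (q, q) + R) < v (X ^ (q + 1)) :=
      Valuation.map_add_lt v (Valuation.map_add_lt v a1 a2) a3
    exact np_ne_zero_of_lt v a4 (by rw [← e]; ring)


end General

variable {F : Type*} [Field F] {O : ValuationSubring F} {q : ℕ} {c : ℕ → ℕ → ℤ} {X Y : F}

theorem np_natCast_le (O : ValuationSubring F) (n : ℕ) : O.valuation (n : F) ≤ 1 :=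
  (ValuationSubring.valuation_le_one_iff O _).2 (natCast_mem O n)

/-- **NP**, first half: `Y` is big as well. -/
theorem ModEq.one_lt (h : ModEq q c X Y) (hX : 1 < O.valuation X) : 1 < O.valuation Y :=
  np_one_lt h O.valuation (np_natCast_le O) hX

/-- **NP**: the Newton polygon of the modular equation. -/
theorem ModEq.np (hq : 1 ≤ q) (hc : c q q = -1) (h : ModEq q c X Y) (hX : 1 < O.valuation X) :
    O.valuation Y = O.valuation X ^ q ∨ O.valuation Y ^ q = O.valuation X :=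
  np_general hq hc h O.valuation (np_natCast_le O) hX

end Fermat.Agent.S15.A

end
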