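/-
S15, block A, HECKE (helper17): consequences of the Newton polygon for `VInf`, `VZero`.
-/
import Fermat.Agent.S15.A.Hecke.NP
import Fermat.Agent.S15.A.Near

set_option autoImplicit false

noncomputable section

namespace Fermat.Agent.S15.A

variable {F : Type*} [Field F] {O : ValuationSubring F} {q : ℕ} {c : ℕ → ℕ → ℤ} {X Y : F}

/-- `a < a ^ q` for `1 < a`, `2 ≤ q`. -/
theorem np2_lt_self_pow {Γ : Type*} [LinearOrderedCommGroupWithZero Γ] {a : Γ} (ha : 1 < a)
    (hq : 2 ≤ q) : a < a ^ q := by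
  obtain ⟨m, rfl⟩ : ∃ m, q = m + 1 + 1 := ⟨q - 2, by omega⟩
  have h0 : (0 : Γ) < a := lt_trans zero_lt_one ha
  have h1 : 1 < a ^ (m + 1) := one_lt_pow' ha (Nat.succ_ne_zero m)
  calc a = 1 * a := (one_mul a).symm
    _ < a ^ (m + 1) * a := mul_lt_mul_of_pos_right h1 h0
    _ = a ^ (m + 1 + 1) := (pow_succ a (m + 1)).symm

theorem ModEq.vInf_or_vZero (hq : 2 ≤ q) (hc : c q q = -1) (h : ModEq q c X Y)
    (hX : 1 < O.valuation X) : VInf O X Y ∨ VZero O X Y := by
  have hY : 1 < O.valuation Y := h.one_lt hX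
  rcases h.np (O := O) (by omega) hc hX with h1 | h1
  · left
    refine ⟨hX, ?_⟩
    rw [h1]
    exact np2_lt_self_pow hX hq
  · right
    refine ⟨hX, ?_⟩
    rw [← h1]
    exact np2_lt_self_pow hY hq

theorem VInf.eq_pow (hq : 2 ≤ q) (hc : c q q = -1) (h : ModEq q c X Y) (h' : VInf O X Y) :
    O.valuation Y = O.valuation X ^ q := by
  have hY : 1 < O.valuation Y := h.one_lt h'.1
  rcases h.np (O := O) (by omega) hc h'.1 with h1 | h1
  · exact h1
  · exfalso
    have h2 := np2_lt_self_pow hY hq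
    rw [h1] at h2
    exact lt_asymm h2 h'.2

theorem VZero.pow_eq (hq : 2 ≤ q) (hc : c q q = -1) (h : ModEq q c X Y) (h' : VZero O X Y) :
    O.valuation Y ^ q = O.valuation X := by
  rcases h.np (O := O) (by omega) hc h'.1 with h1 | h1
  · exfalso
    have h2 := np2_lt_self_pow h'.1 hq
    rw [← h1] at h2
    exact lt_asymm h2 h'.2
  · exact h1

end Fermat.Agent.S15.A

end
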