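/-
S15, block A, HECKE (helper17): the composite valuation ring and restriction of places.
-/
import Fermat.Agent.S15.A.Near

set_option autoImplicit false

noncomputable section

namespace Fermat.Agent.S15.A

open ModularCurve AlgebraicCurve Fermat.Agent.S24 Fermat.Agent.S27 Fermat.Agent.S37

section Comap

variable {F F' : Type*} [Field F] [Field F'] (φ : F →+* F') (O : ValuationSubring F')

theorem Restrict.valuation_le_iff {E : Type*} [Field E] (V : ValuationSubring E) (x y : E) :
    V.valuation x ≤ V.valuation y ↔ (y = 0 → x = 0) ∧ x / y ∈ V := by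
  by_cases hy : y = 0
  · subst hy
    rw [map_zero, le_zero_iff, map_eq_zero, div_zero]
    exact ⟨fun h => ⟨fun _ => h, V.zero_mem⟩, fun h => h.1 rfl⟩
  · have h0 : V.valuation y ≠ 0 := (Valuation.ne_zero_iff _).2 hy
    rw [← V.valuation_le_one_iff, map_div₀, div_le_one₀ (zero_lt_iff.2 h0)]
    exact ⟨fun h => ⟨fun h' => absurd h' hy, h⟩, fun h => h.2⟩

theorem Restrict.comap_valuation_le_iff (f g : F) :
    (O.comap φ).valuation f ≤ (O.comap φ).valuation g ↔
      O.valuation (φ f) ≤ O.valuation (φ g) := by
  rw [Restrict.valuation_le_iff, Restrict.valuation_le_iff, ValuationSubring.mem_comap, map_div₀,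
    map_eq_zero, map_eq_zero]

theorem comap_valuation_lt_iff (f g : F) :
    (O.comap φ).valuation f < (O.comap φ).valuation g ↔
      O.valuation (φ f) < O.valuation (φ g) :=
  lt_iff_lt_of_le_iff_le (Restrict.comap_valuation_le_iff φ O g f)

theorem Restrict.one_lt_comap_iff (J : F) :
    1 < (O.comap φ).valuation J ↔ 1 < O.valuation (φ J) := by
  have h := comap_valuation_lt_iff φ O 1 J
  rwa [map_one, map_one, map_one] at h

theorem vInf_comap (J J' : F) : VInf (O.comap φ) J J' ↔ VInf O (φ J) (φ J') := by
  rw [VInf, VInf, Restrict.one_lt_comap_iff, comap_valuation_lt_iff]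

theorem vZero_comap (J J' : F) : VZero (O.comap φ) J J' ↔ VZero O (φ J) (φ J') := by
  rw [VZero, VZero, Restrict.one_lt_comap_iff, comap_valuation_lt_iff]

end Comap

variable {K F F' : Type*} [Field K] [Field F] [Field F'] [Algebra K F] [Algebra K F']
  [IsAlgClosed K] [FF.IsFF1 K F] [FF.IsFF1 K F']

theorem compRing_restrictAlong (A : ValuationSubring K) (φ : F →ₐ[K] F')
    (hφ : φ.toRingHom.IsIntegral) (W : Place K F') :
    compRing A (W.restrictAlong φ hφ) = (compRing A W).comap (φ : F →+* F') := by
  ext f
  rw [ValuationSubring.mem_comap, mem_compRing, mem_compRing, ord_restrictAlong_nonneg_iff,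
    val_restrictAlong]
  rfl

theorem vInf_restrictAlong (A : ValuationSubring K) (φ : F →ₐ[K] F')
    (hφ : φ.toRingHom.IsIntegral) (W : Place K F') (J J' : F) :
    VInf (compRing A (W.restrictAlong φ hφ)) J J' ↔ VInf (compRing A W) (φ J) (φ J') := by
  rw [compRing_restrictAlong]
  exact vInf_comap _ _ _ _

theorem vZero_restrictAlong (A : ValuationSubring K) (φ : F →ₐ[K] F')
    (hφ : φ.toRingHom.IsIntegral) (W : Place K F') (J J' : F) :
    VZero (compRing A (W.restrictAlong φ hφ)) J J' ↔ VZero (compRing A W) (φ J) (φ J') := by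
  rw [compRing_restrictAlong]
  exact vZero_comap _ _ _ _

end Fermat.Agent.S15.A

end
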