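/-
S15, block A, HECKE (helper17): the square of modular equations
`Φ_p(j, j_p) = Φ_N(j, j_N) = Φ_N(j_p, j_{Np}) = Φ_p(j_N, j_{Np}) = 0`:
`(j, j_N)` and `(j_p, j_{Np})` are near the same cusp.   Pure valuation theory.
-/
import Fermat.Agent.S15.A.Hecke.NP2

set_option autoImplicit false

noncomputable section

namespace Fermat.Agent.S15.A

variable {F : Type*} [Field F] {O : ValuationSubring F} {p N : ℕ} {c c' : ℕ → ℕ → ℤ}
  {j jp jN jNp : F}

theorem square_vInf (hp : 2 ≤ p) (hN : 2 ≤ N) (hpN : p ≠ N) (hc : c p p = -1)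
    (hc' : c' N N = -1) (h1 : ModEq p c j jp) (h2 : ModEq N c' j jN) (h3 : ModEq N c' jp jNp)
    (h4 : ModEq p c jN jNp) (h : VInf O j jN) : VInf O jp jNp := by
  have hA : 1 < O.valuation j := h.1
  have hinj : ∀ m n : ℕ, O.valuation j ^ m = O.valuation j ^ n → m = n := fun m n hmn =>
    (pow_right_strictMono₀ hA).injective hmn
  have hC : O.valuation jN = O.valuation j ^ N := VInf.eq_pow hN hc' h2 h
  have hB1 : 1 < O.valuation jp := h1.one_lt hA
  have hC1 : 1 < O.valuation jN := h2.one_lt hA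
  rcases ModEq.vInf_or_vZero hN hc' h3 hB1 with h' | h'
  · exact h'
  exfalso
  have hb : O.valuation jNp ^ N = O.valuation jp := VZero.pow_eq hN hc' h3 h'
  have hN2 : 4 ≤ N * N := Nat.mul_le_mul hN hN
  rcases h1.np (by omega) hc hA with hB | hB <;> rcases h4.np (by omega) hc hC1 with hb' | hb'
  · rw [hb', hC, hB, ← pow_mul, ← pow_mul] at hb
    have := hinj _ _ hb
    have h5 : N * p * N = (N * N) * p := by ring
    nlinarith
  · have h5 : (O.valuation jNp ^ N) ^ p = (O.valuation jNp ^ p) ^ N := by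
      rw [← pow_mul, ← pow_mul, mul_comm]
    rw [hb, hb', hB, hC, ← pow_mul, ← pow_mul] at h5
    have h6 := hinj _ _ h5
    exact hpN (Nat.mul_self_inj.1 h6)
  · have h5 : (O.valuation jNp ^ N) ^ p = O.valuation j ^ 1 := by rw [hb, hB, pow_one]
    rw [hb', hC, ← pow_mul, ← pow_mul, ← pow_mul] at h5
    have h6 := hinj _ _ h5
    have h7 : N * p * N * p = (N * N) * (p * p) := by ring
    have h8 : 4 ≤ p * p := Nat.mul_le_mul hp hp
    nlinarith
  · have h5 : (O.valuation jNp ^ p) ^ N = O.valuation j ^ 1 := by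
      rw [← pow_mul, mul_comm, pow_mul, hb, hB, pow_one]
    rw [hb', hC, ← pow_mul] at h5
    have h6 := hinj _ _ h5
    omega

theorem square_vZero (hp : 2 ≤ p) (hN : 2 ≤ N) (hpN : p ≠ N) (hc : c p p = -1)
    (hc' : c' N N = -1) (h1 : ModEq p c j jp) (h2 : ModEq N c' j jN) (h3 : ModEq N c' jp jNp)
    (h4 : ModEq p c jN jNp) (h : VZero O j jN) : VZero O jp jNp := by
  have h5 : VInf O jN j := ⟨h2.one_lt h.1, h.2⟩
  have h6 : VInf O jNp jp :=
    square_vInf (c' := fun a b => c' b a) hp hN hpN hc hc' h4 h2.symm h3.symm h1 h5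
  exact ⟨h6.1.trans h6.2, h6.2⟩

end Fermat.Agent.S15.A

end
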