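/-
S15, block A, HECKE (helper17): the Hecke orbit of a place stays near the same cusp.
-/
import Fermat.Agent.S15.A.Hecke.Square
import Fermat.Agent.S15.A.Hecke.ModEqJ
import Fermat.Agent.S15.A.Hecke.Restrict
import Fermat.Agent.S37.HeckeInputs.Main
import Fermat.Agent.GAL.E.Embed

set_option autoImplicit false

noncomputable section

namespace Fermat.Agent.S15.A

open ModularCurve AlgebraicCurve Fermat.Agent.S24 Fermat.Agent.S27 Fermat.Agent.S37
open Fermat.Agent.S37.HeckeInputs

variable {N p : ℕ} [NeZero N] [NeZero p] {A : ValuationSubring Kbar}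

/-- `W|β` near `∞` implies `W|α` near `∞`. -/
theorem nearInf_alpha_of_beta (hN : N.Prime) (hp : p.Prime) (hpN : p ≠ N)
    (W : Place Kbar (FN (N * p)))
    (h : NearInf N A (W.restrictAlong (heckeBetaBar Kbar N p) (beta_integral N p))) :
    NearInf N A (W.restrictAlong (heckeAlphaBar Kbar N p) (alpha_integral N p)) := by
  rw [NearInf, vInf_restrictAlong, jF, jN, GAL.E.heckeBetaBar_JF, GAL.E.heckeBetaBar_JF] at h
  rw [NearInf, vInf_restrictAlong, jF, jN, GAL.E.heckeAlphaBar_JF, GAL.E.heckeAlphaBar_JF]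
  exact square_vInf (c := fun a b => phiC p hp b a) (c' := phiC N hN) hp.two_le hN.two_le hpN
    (phiC_self p hp) (phiC_self N hN)
    (modEq_JF p hp (N * p) 1 (p * 1) rfl _ _).symm
    (modEq_JF N hN (N * p) (p * 1) (p * N) (by ring) _ _)
    (modEq_JF N hN (N * p) 1 N (by ring) _ _)
    (modEq_JF p hp (N * p) N (p * N) rfl _ _).symm h

/-- `W|β` near `0` implies `W|α` near `0`. -/
theorem nearZero_alpha_of_beta (hN : N.Prime) (hp : p.Prime) (hpN : p ≠ N)
    (W : Place Kbar (FN (N * p)))
    (h : NearZero N A (W.restrictAlong (heckeBetaBar Kbar N p) (beta_integral N p))) :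
    NearZero N A (W.restrictAlong (heckeAlphaBar Kbar N p) (alpha_integral N p)) := by
  rw [NearZero, vZero_restrictAlong, jF, jN, GAL.E.heckeBetaBar_JF, GAL.E.heckeBetaBar_JF] at h
  rw [NearZero, vZero_restrictAlong, jF, jN, GAL.E.heckeAlphaBar_JF, GAL.E.heckeAlphaBar_JF]
  exact square_vZero (c := fun a b => phiC p hp b a) (c' := phiC N hN) hp.two_le hN.two_le hpN
    (phiC_self p hp) (phiC_self N hN)
    (modEq_JF p hp (N * p) 1 (p * 1) rfl _ _).symm
    (modEq_JF N hN (N * p) (p * 1) (p * N) (by ring) _ _)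
    (modEq_JF N hN (N * p) 1 N (by ring) _ _)
    (modEq_JF p hp (N * p) N (p * N) rfl _ _).symm h

end Fermat.Agent.S15.A

end
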