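/-
S15, block A, HECKE (helper17): the degree of `β` is `p + 1`.
-/
import Fermat.Agent.S37.C0.Descent
import Fermat.Agent.GAL.E.Cusps.AtkinLehner

set_option autoImplicit false

noncomputable section

namespace Fermat.Agent.S15.A

open ModularCurve AlgebraicCurve Fermat.Agent.S24 Fermat.Agent.S37
open Fermat.Agent.S37.HeckeInputs

/-- `[F' : ψ F] = [F' : φ F]` if `ψ = w ∘ φ` for an automorphism `w` of `F'`. -/
theorem finrankAlong_eq_of_aut {K F F' : Type*} [Field K] [Field F] [Field F'] [Algebra K F]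
    [Algebra K F'] (φ ψ : F →ₐ[K] F') (w : F' ≃ₐ[K] F') (h : ∀ x, w (φ x) = ψ x) :
    finrankAlong K ψ = finrankAlong K φ := by
  let A1 : Algebra F F' := algebraAlong φ
  let A2 : Algebra F F' := algebraAlong ψ
  let e : @LinearEquiv F F _ _ (RingHom.id F) (RingHom.id F) _ _ F' F' _ _
      A1.toModule A2.toModule :=
    @LinearEquiv.mk F F _ _ (RingHom.id F) (RingHom.id F) _ _ F' F' _ _ A1.toModule A2.toModule
      (@LinearMap.mk F F _ _ (RingHom.id F) F' F' _ _ A1.toModule A2.toModule
        ⟨w, map_add w⟩ (fun a x => by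
          show w (φ a * x) = ψ a * w x
          rw [map_mul, h]))
      w.symm w.symm_apply_apply w.apply_symm_apply
  exact (@LinearEquiv.finrank_eq F F' F' _ _ A1.toModule _ A2.toModule e).symm

theorem finrankAlong_beta (N p : ℕ) [NeZero N] [NeZero p] (hp : p.Prime) (hpN : ¬ p ∣ N) :
    finrankAlong Kbar (heckeBetaBar Kbar N p) = p + 1 := by
  have hc : Nat.Coprime p N := (Nat.Prime.coprime_iff_not_dvd hp).2 hpN
  rw [finrankAlong_eq_of_aut (heckeAlphaBar Kbar N p) (heckeBetaBar Kbar N p)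
    (Fermat.Agent.GAL.E.wAL N p hc) (Fermat.Agent.GAL.E.wAL_alpha N p hc)]
  exact descent_finrankAlong N p hp hpN

end Fermat.Agent.S15.A

end
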