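/-
S15, block A, HECKE (helper17): `ND` and `NN` are stable under the Hecke operators.
-/
import Fermat.Agent.S15.A.Hecke.Orbit
import Fermat.Agent.S15.A.Basic
import Fermat.Agent.S37.II.Core.FrobeniusAux

set_option autoImplicit false

noncomputable section

namespace Fermat.Agent.S15.A

open ModularCurve AlgebraicCurve Fermat.Agent.S24 Fermat.Agent.S27 Fermat.Agent.S37
open Fermat.Agent.S37.HeckeInputs

variable {N : ℕ} [NeZero N] {A : ValuationSubring Kbar}

theorem ND_le_degZero : ND N A ≤ Divisor.degZero (K := Kbar) (F := FN N) := by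
  rw [ND, AddSubgroup.closure_le]
  rintro D ⟨P, P', -, rfl⟩
  exact degree_pt_sub_pt P P'

theorem mem_NN_iff {x : JZero N} : x ∈ NN N A ↔ ∃ D ∈ ND N A, x = cls D := by
  constructor
  · intro hx
    rw [NN] at hx
    induction hx using AddSubgroup.closure_induction with
    | mem x hx =>
      obtain ⟨P, P', h, rfl⟩ := hx
      exact ⟨_, AddSubgroup.subset_closure ⟨P, P', h, rfl⟩, rfl⟩
    | zero => exact ⟨0, (ND N A).zero_mem, cls_zero.symm⟩
    | add x y _ _ hx hy =>
      obtain ⟨D, hD, rfl⟩ := hx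
      obtain ⟨E, hE, rfl⟩ := hy
      exact ⟨D + E, (ND N A).add_mem hD hE,
        (cls_add (ND_le_degZero hD) (ND_le_degZero hE)).symm⟩
    | neg x _ hx =>
      obtain ⟨D, hD, rfl⟩ := hx
      exact ⟨-D, (ND N A).neg_mem hD, (cls_neg (ND_le_degZero hD)).symm⟩
  · rintro ⟨D, hD, rfl⟩
    have key : D ∈ ND N A ∧ cls D ∈ NN N A := by
      rw [ND] at hD
      induction hD using AddSubgroup.closure_induction with
      | mem D hD =>
        obtain ⟨P, P', h, rfl⟩ := hD
        exact ⟨AddSubgroup.subset_closure ⟨P, P', h, rfl⟩, cls_mem_NN h⟩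
      | zero => exact ⟨(ND N A).zero_mem, by rw [cls_zero]; exact (NN N A).zero_mem⟩
      | add D E _ _ hD hE =>
        refine ⟨(ND N A).add_mem hD.1 hE.1, ?_⟩
        rw [cls_add (ND_le_degZero hD.1) (ND_le_degZero hE.1)]
        exact (NN N A).add_mem hD.2 hE.2
      | neg D _ hD =>
        refine ⟨(ND N A).neg_mem hD.1, ?_⟩
        rw [cls_neg (ND_le_degZero hD.1)]
        exact (NN N A).neg_mem hD.2
    exact key.2

/-- two weighted sums of places near the same cusp as `R`, of the same total weight, differ by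
an element of `ND`. -/
theorem sum_sub_sum_mem_ND {ι ι' : Type*} (s : Finset ι) (s' : Finset ι') (n : ι → ℤ)
    (n' : ι' → ℤ) (P : ι → Place Kbar (FN N)) (P' : ι' → Place Kbar (FN N))
    (R : Place Kbar (FN N)) (hP : ∀ i ∈ s, Same N A (P i) R) (hP' : ∀ i ∈ s', Same N A (P' i) R)
    (hn : ∑ i ∈ s, n i = ∑ i ∈ s', n' i) :
    ∑ i ∈ s, Finsupp.single (P i) (n i) - ∑ i ∈ s', Finsupp.single (P' i) (n' i) ∈ ND N A := by
  have e : ∀ (Q : Place Kbar (FN N)) (m : ℤ),
      (Finsupp.single Q m : Divisor Kbar (FN N)) = m • (pt Q - pt R) + m • pt R := by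
    intro Q m
    rw [← smul_add, sub_add_cancel, pt, Finsupp.smul_single, smul_eq_mul, mul_one]
  have h1 : ∑ i ∈ s, (Finsupp.single (P i) (n i) : Divisor Kbar (FN N)) -
      ∑ i ∈ s', (Finsupp.single (P' i) (n' i) : Divisor Kbar (FN N)) =
      ∑ i ∈ s, n i • (pt (P i) - pt R) - ∑ i ∈ s', n' i • (pt (P' i) - pt R) := by
    rw [Finset.sum_congr rfl fun i _ => e (P i) (n i),
      Finset.sum_congr rfl fun i _ => e (P' i) (n' i), Finset.sum_add_distrib,
      Finset.sum_add_distrib, ← Finset.sum_smul, ← Finset.sum_smul, hn]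
    abel
  rw [h1]
  exact (ND N A).sub_mem
    ((ND N A).sum_mem fun i hi =>
      (ND N A).zsmul_mem (AddSubgroup.subset_closure ⟨_, _, hP i hi, rfl⟩) _)
    ((ND N A).sum_mem fun i hi =>
      (ND N A).zsmul_mem (AddSubgroup.subset_closure ⟨_, _, hP' i hi, rfl⟩) _)

variable {p : ℕ} [NeZero p]

theorem heckeDiv_sub_mem_ND (hN : N.Prime) (hp : p.Prime) (hpN : p ≠ N)
    {P P' : Place Kbar (FN N)} (h : Same N A P P') : heckeDiv N p (pt P - pt P') ∈ ND N A := by
  rw [map_sub, pt, pt, heckeDiv_single, heckeDiv_single]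
  refine sum_sub_sum_mem_ND _ _ _ _ _ _ P' ?_ ?_ ?_
  · intro W hW
    replace hW := Place.mem_fiberAlong.1 hW
    rcases h with h | h
    · exact Or.inl ⟨nearInf_alpha_of_beta hN hp hpN W (by rw [hW]; exact h.1), h.2⟩
    · exact Or.inr ⟨nearZero_alpha_of_beta hN hp hpN W (by rw [hW]; exact h.1), h.2⟩
  · intro W hW
    replace hW := Place.mem_fiberAlong.1 hW
    rcases h with h | h
    · exact Or.inl ⟨nearInf_alpha_of_beta hN hp hpN W (by rw [hW]; exact h.2), h.2⟩
    · exact Or.inr ⟨nearZero_alpha_of_beta hN hp hpN W (by rw [hW]; exact h.2), h.2⟩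
  · simp only [one_mul]
    rw [Fermat.Agent.S37.II.frobAux_sum_ram N p P, Fermat.Agent.S37.II.frobAux_sum_ram N p P']

theorem heckeDiv_mem_ND (hN : N.Prime) (hp : p.Prime) (hpN : p ≠ N)
    {D : Divisor Kbar (FN N)} (hD : D ∈ ND N A) : heckeDiv N p D ∈ ND N A := by
  rw [ND] at hD
  induction hD using AddSubgroup.closure_induction with
  | mem D hD =>
    obtain ⟨P, P', h, rfl⟩ := hD
    exact heckeDiv_sub_mem_ND hN hp hpN h
  | zero => rw [map_zero]; exact (ND N A).zero_mem
  | add D E _ _ hD hE => rw [map_add]; exact (ND N A).add_mem hD hE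
  | neg D _ hD => rw [map_neg]; exact (ND N A).neg_mem hD

theorem Tp_cls {D : Divisor Kbar (FN N)} (hD : Divisor.degree D = 0) :
    Tp N p (cls D) = cls (heckeDiv N p D) := by
  have h1 : Tp N p = heckeOperatorAlong Kbar N p := dif_neg (NeZero.ne p)
  rw [h1, cls_eq_mk hD,
    cls_eq_mk (show Divisor.degree (heckeDiv N p D) = 0 from heckeDiv_mem_degZero N p hD)]
  exact heckeOperatorAlong_mk N p ⟨D, hD⟩

/-- **Hecke stability.** -/
theorem heckeStable (hN : N.Prime) : HeckeStable N := by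
  intro A p hp hpN x hx
  have : NeZero p := ⟨hp.ne_zero⟩
  obtain ⟨D, hD, rfl⟩ := mem_NN_iff.1 hx
  rw [Tp_cls (ND_le_degZero hD)]
  exact mem_NN_iff.2 ⟨_, heckeDiv_mem_ND hN hp (fun h => hpN (h ▸ dvd_rfl)) hD, rfl⟩

end Fermat.Agent.S15.A

end
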