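/-
S15, block A, HECKE (helper17): `T_p (κ) = (p + 1) (κ)` for the two cusps; the cuspidal class is
Eisenstein.
-/
import Fermat.Agent.S15.A.Hecke.Stable
import Fermat.Agent.S15.A.Hecke.Deg

set_option autoImplicit false

noncomputable section

namespace Fermat.Agent.S15.A

open ModularCurve AlgebraicCurve Fermat.Agent.S24 Fermat.Agent.S27 Fermat.Agent.S37
open Fermat.Agent.S37.HeckeInputs

variable {N p : ℕ} [NeZero N] [NeZero p] {z : Place Kbar (FN N)}

/-- for `A = ⊤` nearness is a statement on the orders -/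
theorem ord_neg_of_nearInf_top {P : Place Kbar (FN N)} (h : NearInf N ⊤ P) :
    P.ord (jF N) < 0 := by
  have h1 := one_lt_valuation_iff.1 h.1
  by_contra hc
  exact h1 ⟨not_lt.1 hc, ValuationSubring.mem_top _⟩

theorem ord_neg_of_nearZero_top {P : Place Kbar (FN N)} (h : NearZero N ⊤ P) :
    P.ord (jF N) < 0 := by
  have h1 := one_lt_valuation_iff.1 h.1
  by_contra hc
  exact h1 ⟨not_lt.1 hc, ValuationSubring.mem_top _⟩

theorem eq_cInf_of_nearInf_top (hN : 2 ≤ N) (hz : IsCusp0 N z) {P : Place Kbar (FN N)}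
    (h : NearInf N ⊤ P) : P = cInf N := by
  rcases hz.only P (ord_neg_of_nearInf_top h) with h1 | h1
  · exact h1
  · rw [h1] at h
    exact absurd h (not_vInf_of_vZero (hz.nearZero hN ⊤))

theorem eq_cusp0_of_nearZero_top (hN : 2 ≤ N) (hz : IsCusp0 N z) {P : Place Kbar (FN N)}
    (h : NearZero N ⊤ P) : P = z := by
  rcases hz.only P (ord_neg_of_nearZero_top h) with h1 | h1
  · rw [h1] at h
    exact absurd (nearInf_cInf hN ⊤) (not_vInf_of_vZero h)
  · exact h1

/-- if all the places of the fibre of `β` over `P` restrict to `P` along `α` then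
`T_p (P) = (p + 1) (P)`. -/
theorem Eis.heckeDiv_pt_of_forall (hp : p.Prime) (hpN : ¬ p ∣ N) (P : Place Kbar (FN N))
    (h : ∀ W : Place Kbar (FN (N * p)),
      W.restrictAlong (heckeBetaBar Kbar N p) (beta_integral N p) = P →
        W.restrictAlong (heckeAlphaBar Kbar N p) (alpha_integral N p) = P) :
    heckeDiv N p (pt P) = (p + 1) • pt P := by
  rw [pt, heckeDiv_single]
  have h1 : ∀ w ∈ Place.fiberAlong (heckeBetaBar Kbar N p) (beta_integral N p) P,
      Finsupp.single (w.restrictAlong (heckeAlphaBar Kbar N p) (alpha_integral N p))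
          (1 * (w.ramificationIndexAlong (heckeBetaBar Kbar N p) : ℤ)) =
        Finsupp.singleAddHom P (w.ramificationIndexAlong (heckeBetaBar Kbar N p) : ℤ) := by
    intro w hw
    rw [h w (Place.mem_fiberAlong.1 hw), one_mul]
    rfl
  rw [Finset.sum_congr rfl h1, ← map_sum, S37.II.frobAux_sum_ram, finrankAlong_beta N p hp hpN,
    Finsupp.singleAddHom_apply, Finsupp.smul_single, nsmul_eq_mul, mul_one]

theorem heckeDiv_cInf (hN : N.Prime) (hp : p.Prime) (hpN : p ≠ N) (hz : IsCusp0 N z) :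
    heckeDiv N p (pt (cInf N)) = (p + 1) • pt (cInf N) := by
  have hpN' : ¬ p ∣ N := fun h => hpN ((Nat.prime_dvd_prime_iff_eq hp hN).1 h)
  refine Eis.heckeDiv_pt_of_forall hp hpN' _ fun W hW => ?_
  apply eq_cInf_of_nearInf_top hN.two_le hz
  apply nearInf_alpha_of_beta hN hp hpN
  rw [hW]
  exact nearInf_cInf hN.two_le ⊤

theorem heckeDiv_cusp0 (hN : N.Prime) (hp : p.Prime) (hpN : p ≠ N) (hz : IsCusp0 N z) :
    heckeDiv N p (pt z) = (p + 1) • pt z := by
  have hpN' : ¬ p ∣ N := fun h => hpN ((Nat.prime_dvd_prime_iff_eq hp hN).1 h)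
  refine Eis.heckeDiv_pt_of_forall hp hpN' _ fun W hW => ?_
  apply eq_cusp0_of_nearZero_top hN.two_le hz
  apply nearZero_alpha_of_beta hN hp hpN
  rw [hW]
  exact hz.nearZero hN.two_le ⊤

/-- **Eisenstein.** -/
theorem eisStmt (hN : N.Prime) (hz : IsCusp0 N z) : EisStmt N z := by
  intro p hp hpN
  have : NeZero p := ⟨hp.ne_zero⟩
  have hne : p ≠ N := fun h => hpN (h ▸ dvd_rfl)
  have hnsmul : ∀ n : ℕ, cls (n • (pt z - pt (cInf N))) = n • cls (pt z - pt (cInf N)) := by
    intro n
    induction n with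
    | zero => rw [zero_smul, cls_zero, zero_nsmul]
    | succ n ih =>
      rw [succ_nsmul, succ_nsmul, cls_add (by rw [map_nsmul, degree_pt_sub_pt, smul_zero])
        (degree_pt_sub_pt _ _), ih]
  rw [cc, Tp_cls (degree_pt_sub_pt _ _), map_sub, heckeDiv_cInf hN hp hne hz,
    heckeDiv_cusp0 hN hp hne hz, ← smul_sub, hnsmul, add_comm]

end Fermat.Agent.S15.A

end
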